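/-
T1B / brick H (helper13's route, report 993), slice H-SEMI = (P-C), helper32.  File 1: the ABSTRACT
semicontinuity step over a valuation ring.

`A ≤ K` a valuation subring with residue field `k`; `B' ⊆ A((q))` an `A`-submodule (in the application:
the `A`-integral `q`-expansions of the modular functions regular away from `∞`).  If

* (`hgap`, characteristic `0`)  any `n + 1` Laurent series over `K` are `K`-linearly dependent modulo
  `K[[q]] + emb B'`  (Riemann's inequality: at most `n = g` gaps at `∞`), and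
* (`hsat`, saturation = torsion-freeness of `A((q)) / (A[[q]] + B')`)  `γ • x ∈ A[[q]] + B'`, `γ ≠ 0`
  implies `x ∈ A[[q]] + B'`,

then any `n + 1` Laurent series over `k` are `k`-linearly dependent modulo `k[[q]] + red B'`:
`exists_dependent_mod`.  Mathlib + the Prelude's `coeffMap` only.
-/
import Mathlib
import Fermat.Prelude.Def_ModularCurve_LaurentCoeff

set_option autoImplicit false

noncomputable section

namespace Fermat.Agent.T1B.HSemi32

open HahnSeries ModularCurve

/-! ### Laurent series without principal part -/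

/-- `R[[q]] ⊆ R((q))`: the Laurent series without principal part. -/
def PS (R : Type*) [CommRing R] : Submodule R (LaurentSeries R) where
  carrier := {x | ∀ n : ℤ, n < 0 → x.coeff n = 0}
  zero_mem' := fun _ _ => rfl
  add_mem' := fun {x y} hx hy n hn => by
    rw [HahnSeries.coeff_add, hx n hn, hy n hn, add_zero]
  smul_mem' := fun c x hx n hn => by
    rw [HahnSeries.coeff_smul, hx n hn, smul_zero]

theorem mem_PS {R : Type*} [CommRing R] {x : LaurentSeries R} :
    x ∈ PS R ↔ ∀ n : ℤ, n < 0 → x.coeff n = 0 := Iff.rfl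

theorem coeffMap_mem_PS {R S : Type*} [CommRing R] [CommRing S] (φ : R →+* S)
    {x : LaurentSeries R} (hx : x ∈ PS R) : coeffMap φ x ∈ PS S := fun n hn => by
  rw [coeffMap_coeff, hx n hn, map_zero]

theorem mem_PS_of_coeffMap_mem {R S : Type*} [CommRing R] [CommRing S] (φ : R →+* S)
    (hφ : Function.Injective φ) {x : LaurentSeries R} (hx : coeffMap φ x ∈ PS S) : x ∈ PS R :=
  fun n hn => hφ (by rw [← coeffMap_coeff, hx n hn, map_zero])

/-! ### `coeffMap`: linearity and lifting -/

theorem coeffMap_smul {R S : Type*} [CommRing R] [CommRing S] (φ : R →+* S) (c : R)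
    (x : LaurentSeries R) : coeffMap φ (c • x) = φ c • coeffMap φ x := by
  ext n
  rw [coeffMap_coeff, HahnSeries.coeff_smul, HahnSeries.coeff_smul, coeffMap_coeff, smul_eq_mul,
    smul_eq_mul, map_mul]

theorem coeffMap_sum {R S : Type*} [CommRing R] [CommRing S] (φ : R →+* S) {ι : Type*}
    (s : Finset ι) (x : ι → LaurentSeries R) :
    coeffMap φ (∑ i ∈ s, x i) = ∑ i ∈ s, coeffMap φ (x i) := map_sum (coeffMap φ) x s

/-- A surjective ring homomorphism is surjective on Laurent series, coefficientwise. -/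
theorem exists_coeffMap_eq {R S : Type*} [CommRing R] [CommRing S] (φ : R →+* S)
    (hφ : Function.Surjective φ) (y : LaurentSeries S) : ∃ x : LaurentSeries R, coeffMap φ x = y := by
  classical
  choose g hg using hφ
  let c : ℤ → R := fun n => if y.coeff n = 0 then 0 else g (y.coeff n)
  have hsupp : Function.support c ⊆ y.support := by
    intro n hn
    rw [HahnSeries.mem_support]
    intro h0
    apply hn
    show (if y.coeff n = 0 then 0 else g (y.coeff n)) = 0
    rw [if_pos h0]
  refine ⟨⟨c, y.isPWO_support.mono hsupp⟩, ?_⟩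
  ext n
  rw [coeffMap_coeff]
  show φ (if y.coeff n = 0 then 0 else g (y.coeff n)) = y.coeff n
  by_cases h0 : y.coeff n = 0
  · rw [if_pos h0, map_zero, h0]
  · rw [if_neg h0, hg]

/-! ### Normalising a coefficient vector over a valuation ring -/

section ValRing

variable {K : Type*} [Field K] (A : ValuationSubring K)

/-- A nonzero vector over `K` is, up to a nonzero scalar, a vector over `A` one of whose
coordinates is `1`. -/
theorem exists_normalise {ι : Type*} [Fintype ι] (c : ι → K) (hc : c ≠ 0) :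
    ∃ (s : K) (j : ι) (b : ι → ↥A), s ≠ 0 ∧ b j = 1 ∧ ∀ i, ((b i : ↥A) : K) = s * c i := by
  classical
  -- choose `j` with `c j ≠ 0` and `c i / c j ∈ A` for all `i`: induction on the valuation order
  have hex : ∃ j, c j ≠ 0 := by
    by_contra h
    simp only [not_exists, not_not] at h
    exact hc (funext h)
  -- the finite nonempty set of nonzero coordinates has an element of maximal valuation-ring order
  obtain ⟨j, hj, hmax⟩ : ∃ j, c j ≠ 0 ∧ ∀ i, c i ≠ 0 → A.valuation (c i) ≤ A.valuation (c j) := by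
    obtain ⟨j0, hj0⟩ := hex
    have hne : (Finset.univ.filter fun i => c i ≠ 0).Nonempty := ⟨j0, by simp [hj0]⟩
    obtain ⟨j, hjmem, hjmax⟩ := Finset.exists_max_image _ (fun i => A.valuation (c i)) hne
    refine ⟨j, (Finset.mem_filter.mp hjmem).2, fun i hi => hjmax i (by simp [hi])⟩
  have hmem : ∀ i, (c j)⁻¹ * c i ∈ A := by
    intro i
    by_cases hi : c i = 0
    · rw [hi, mul_zero]; exact A.zero_mem
    · rw [← A.valuation_le_one_iff, map_mul, map_inv₀]
      have h1 := hmax i hi
      have h2 : A.valuation (c j) ≠ 0 := (A.valuation.ne_zero_iff).mpr hj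
      calc (A.valuation (c j))⁻¹ * A.valuation (c i)
          ≤ (A.valuation (c j))⁻¹ * A.valuation (c j) := by gcongr
        _ = 1 := inv_mul_cancel₀ h2
  refine ⟨(c j)⁻¹, j, fun i => ⟨(c j)⁻¹ * c i, hmem i⟩, inv_ne_zero hj, ?_, fun i => rfl⟩
  apply Subtype.ext
  show (c j)⁻¹ * c j = 1
  exact inv_mul_cancel₀ hj

/-! ### The semicontinuity step -/

/-- **(P-C), abstract form.**  Dependence modulo `K[[q]] + emb B'` in characteristic `0` (`hgap`)
and saturation of `A[[q]] + B'` in `A((q))` (`hsat`) give dependence modulo `k[[q]] + red B'`. -/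
theorem exists_dependent_mod (B' : Submodule ↥A (LaurentSeries ↥A)) (n : ℕ)
    (hgap : ∀ W : Fin (n + 1) → LaurentSeries K, ∃ c : Fin (n + 1) → K, c ≠ 0 ∧
      ∃ h ∈ PS K, ∃ f ∈ B', ∑ i, c i • W i = h + coeffMap A.subtype f)
    (hsat : ∀ γ : ↥A, γ ≠ 0 → ∀ x : LaurentSeries ↥A,
      (∃ h ∈ PS ↥A, ∃ f ∈ B', γ • x = h + f) → ∃ h ∈ PS ↥A, ∃ f ∈ B', x = h + f)
    (w : Fin (n + 1) → LaurentSeries (IsLocalRing.ResidueField ↥A)) :
    ∃ c : Fin (n + 1) → IsLocalRing.ResidueField ↥A, c ≠ 0 ∧
      ∃ h ∈ PS (IsLocalRing.ResidueField ↥A), ∃ f ∈ B',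
        ∑ i, c i • w i = h + coeffMap (IsLocalRing.residue ↥A) f := by
  classical
  -- lift the `w i` to `A((q))`
  have hlift : ∀ i, ∃ W : LaurentSeries ↥A, coeffMap (IsLocalRing.residue ↥A) W = w i := fun i =>
    exists_coeffMap_eq _ IsLocalRing.residue_surjective (w i)
  choose W hW using hlift
  obtain ⟨c, hc, h, hh, f, hf, hsum⟩ := hgap fun i => coeffMap A.subtype (W i)
  obtain ⟨s, j, b, hs, hbj, hb⟩ := exists_normalise A c hc
  -- `X = ∑ b i • W i ∈ A((q))` with `emb X = s • (h + emb f)`
  set X : LaurentSeries ↥A := ∑ i, b i • W i with hX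
  have hembX : coeffMap A.subtype X = s • h + s • coeffMap A.subtype f := by
    rw [hX, coeffMap_sum, ← smul_add, ← hsum, Finset.smul_sum]
    refine Finset.sum_congr rfl fun i _ => ?_
    rw [coeffMap_smul, smul_smul]
    congr 1
    exact hb i
  -- write `s = a / γ` with `a, γ ∈ A`, `γ ≠ 0`
  obtain ⟨γ, hγ0, a, ha⟩ : ∃ γ : ↥A, γ ≠ 0 ∧ ∃ a : ↥A, (γ : K) * s = (a : K) := by
    rcases A.mem_or_inv_mem s with hsA | hsA
    · exact ⟨1, one_ne_zero, ⟨s, hsA⟩, by simp⟩
    · refine ⟨⟨s⁻¹, hsA⟩, ?_, 1, ?_⟩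
      · intro h0
        have : s⁻¹ = 0 := congrArg Subtype.val h0
        exact inv_ne_zero hs this
      · show s⁻¹ * s = ((1 : ↥A) : K)
        rw [inv_mul_cancel₀ hs]; rfl
  -- `γ • X = (γ s) • h + emb (a • f)`; the first summand is `emb` of an element of `A[[q]]`
  have hγX : coeffMap A.subtype (γ • X - a • f) = ((γ : K) * s) • h := by
    rw [map_sub, coeffMap_smul, coeffMap_smul, hembX, smul_add, smul_smul, smul_smul]
    have : A.subtype a = (γ : K) * s := ha.symm
    rw [this]
    show ((γ : K) * s) • h + ((γ : K) * s) • coeffMap A.subtype f -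
      ((γ : K) * s) • coeffMap A.subtype f = _
    rw [add_sub_cancel_right]
  have hPS : γ • X - a • f ∈ PS ↥A := by
    apply mem_PS_of_coeffMap_mem A.subtype Subtype.val_injective
    rw [hγX]
    exact (PS K).smul_mem _ hh
  obtain ⟨h', hh', f', hf', hXeq⟩ := hsat γ hγ0 X
    ⟨γ • X - a • f, hPS, a • f, B'.smul_mem a hf, by rw [sub_add_cancel]⟩
  -- reduce modulo the maximal ideal
  refine ⟨fun i => IsLocalRing.residue ↥A (b i), ?_, coeffMap (IsLocalRing.residue ↥A) h',
    coeffMap_mem_PS _ hh', f', hf', ?_⟩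
  · intro h0
    have := congrFun h0 j
    simp only [Pi.zero_apply] at this
    rw [hbj, map_one] at this
    exact one_ne_zero this
  · rw [← map_add, ← hXeq, hX, coeffMap_sum]
    refine Finset.sum_congr rfl fun i _ => ?_
    rw [coeffMap_smul, hW]

end ValRing

end Fermat.Agent.T1B.HSemi32
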