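/-
T1B / brick H (helper13's route, report 993), slice H-SEMI = (P-C), helper32.  File 2: the
CHARACTERISTIC ZERO half: **at most `g` gaps at a place of degree one**.

`F / K` a function field (`IsGen K x`, `K` algebraically closed of characteristic `0`), embedded in
`K((q))` by `e` so that a place `oo` of `F` is the `q`-adic one (`oo.ord f = (e f).order`).  Then any
`g + 1` Laurent series (`g = genusFF K F`) are `K`-linearly dependent modulo
`K[[q]] + e (functions regular away from oo)`: `exists_dependent_gap` (for any finite family of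
more than `g` series).

Proof: Riemann–Roch gives `l(n·oo) ≥ n + 1 - g`; the principal part map `L(n·oo) → K^n` has kernel
`L(0) = K`, so its image has codimension `≤ g` in `K^n`.
-/
import Mathlib
import Fermat.Agent.RR.RRMain
import Fermat.Agent.T1B.HSemi32.ValRing

set_option autoImplicit false
set_option linter.unusedSectionVars false
set_option linter.style.haveILetI false

noncomputable section

namespace Fermat.Agent.T1B.HSemi32

open AlgebraicCurve HahnSeries
open Fermat.Agent.X0.FF Fermat.Agent.RR.LSpace

/-! ### Elementary facts on orders of Laurent series -/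

theorem order_nonneg_of_mem_PS {R : Type*} [CommRing R] {x : LaurentSeries R} (hx : x ∈ PS R) :
    0 ≤ x.order := by
  by_cases h0 : x = 0
  · rw [h0, HahnSeries.order_zero]
  · by_contra hlt
    exact h0 (HahnSeries.coeff_order_eq_zero.mp (hx _ (not_le.mp hlt)))

/-- All coefficients of a Laurent series vanish below some `-n`. -/
theorem exists_nat_coeff_eq_zero {R : Type*} [CommRing R] {ι : Type*} [Finite ι]
    (W : ι → LaurentSeries R) : ∃ n : ℕ, ∀ i, ∀ m : ℤ, m < -(n : ℤ) → (W i).coeff m = 0 := by
  classical
  cases nonempty_fintype ι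
  refine ⟨∑ i, (-(W i).order).toNat, fun i m hm => ?_⟩
  apply HahnSeries.coeff_eq_zero_of_lt_order
  have h1 : ((-(W i).order).toNat : ℤ) ≤ ((∑ i, (-(W i).order).toNat : ℕ) : ℤ) := by
    exact_mod_cast Finset.single_le_sum (f := fun i => (-(W i).order).toNat)
      (fun _ _ => Nat.zero_le _) (Finset.mem_univ i)
  have h2 : -(W i).order ≤ ((-(W i).order).toNat : ℤ) := Int.self_le_toNat _
  omega

section Gap

variable {K F : Type*} [Field K] [Field F] [Algebra K F] [IsAlgClosed K] [CharZero K] {x : F}
  [HasCanonicalDivisor (K := K) (F := F)]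

/-- The functions regular away from `oo`. -/
def regOff (oo : Place K F) : Submodule K F where
  carrier := {f | ∀ v : Place K F, v ≠ oo → f ∈ v.toValuationSubring}
  zero_mem' := fun v _ => zero_mem _
  add_mem' := fun {a b} ha hb v hv => add_mem (ha v hv) (hb v hv)
  smul_mem' := fun c a ha v hv => by
    rw [Algebra.smul_def]
    exact mul_mem (v.algebraMap_mem' c) (ha v hv)

theorem mem_regOff {oo : Place K F} {f : F} :
    f ∈ regOff oo ↔ ∀ v : Place K F, v ≠ oo → f ∈ v.toValuationSubring := Iff.rfl

/-- The principal part of order `≤ n` of the expansion of `f`. -/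
def ppart (e : F →ₐ[K] LaurentSeries K) (n : ℕ) : F →ₗ[K] (Fin n → K) where
  toFun f m := (e f).coeff (-((m : ℕ) + 1 : ℤ))
  map_add' f g := by
    funext m
    simp only [map_add, HahnSeries.coeff_add, Pi.add_apply]
  map_smul' c f := by
    funext m
    show (e (c • f)).coeff _ = c • (e f).coeff _
    rw [Algebra.smul_def, map_mul, AlgHom.commutes,
      ModularCurve.algebraMap_laurentSeries_eq_single, HahnSeries.single_zero_mul_eq_smul,
      HahnSeries.coeff_smul]

theorem ppart_apply (e : F →ₐ[K] LaurentSeries K) (n : ℕ) (f : F) (m : Fin n) :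
    ppart e n f m = (e f).coeff (-((m : ℕ) + 1 : ℤ)) := rfl

variable (hx : IsGen K x) (e : F →ₐ[K] LaurentSeries K) (oo : Place K F)
  (hord : ∀ f : F, f ≠ 0 → oo.ord f = (e f).order)

include hord in
/-- Elements of `L(n·oo)` have no coefficients below `-n`. -/
theorem coeff_eq_zero_of_mem_L {n : ℕ} {f : F}
    (hf : f ∈ riemannRochSpace (Finsupp.single oo (n : ℤ) : Divisor K F)) {m : ℤ}
    (hm : m < -(n : ℤ)) : (e f).coeff m = 0 := by
  rcases eq_or_ne f 0 with rfl | hf0
  · rw [map_zero]; rfl
  · apply HahnSeries.coeff_eq_zero_of_lt_order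
    have h := (mem_riemannRochSpace_iff.mp hf oo).resolve_left hf0
    rw [Finsupp.single_eq_same, hord f hf0] at h
    omega

include hord in
/-- The kernel of the principal part map on `L(n·oo)` consists of everywhere regular functions. -/
theorem mem_L_zero_of_ppart_eq_zero {n : ℕ} {f : F}
    (hf : f ∈ riemannRochSpace (Finsupp.single oo (n : ℤ) : Divisor K F))
    (hp : ppart e n f = 0) : f ∈ riemannRochSpace (0 : Divisor K F) := by
  rw [mem_riemannRochSpace_iff]
  intro v
  rcases eq_or_ne f 0 with rfl | hf0
  · exact Or.inl rfl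
  · right
    by_cases hv : v = oo
    · subst hv
      rw [Finsupp.coe_zero, Pi.zero_apply, neg_zero, hord f hf0]
      apply order_nonneg_of_mem_PS
      intro m hm
      by_cases hmn : m < -(n : ℤ)
      · exact coeff_eq_zero_of_mem_L e v hord hf hmn
      · -- `m = -(k + 1)` with `k < n`
        have hk : (-m - 1).toNat < n := by omega
        have h := congrFun hp ⟨(-m - 1).toNat, hk⟩
        rw [ppart_apply] at h
        have hm' : -((((⟨(-m - 1).toNat, hk⟩ : Fin n) : ℕ) : ℤ) + 1) = m := by
          show -((((-m - 1).toNat : ℕ) : ℤ) + 1) = m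
          rw [Int.toNat_of_nonneg (by omega)]
          ring
        rw [hm'] at h
        exact h
    · have h := (mem_riemannRochSpace_iff.mp hf v).resolve_left hf0
      rw [Finsupp.single_eq_of_ne hv] at h
      simpa using h

include hx hord in
/-- **At most `g` gaps.**  Any `g + 1` Laurent series are dependent modulo
`K[[q]] + e (regOff oo)`. -/
theorem exists_dependent_gap {ι : Type*} [Fintype ι] (hcard : genusFF K F < Fintype.card ι)
    (W : ι → LaurentSeries K) :
    ∃ c : ι → K, c ≠ 0 ∧
      ∃ h ∈ PS K, ∃ f ∈ regOff oo, ∑ i, c i • W i = h + e f := by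
  classical
  obtain ⟨n, hn⟩ := exists_nat_coeff_eq_zero W
  set D : Divisor K F := Finsupp.single oo (n : ℤ) with hD
  have H : LHyp K F := Fermat.Agent.RR.LHypGen.lHyp_of_isGen hx
  haveI : FiniteDimensional K (riemannRochSpace D) :=
    Fermat.Agent.RR.RRMain.finiteDimensional_L hx D
  -- Riemann–Roch: `l(D) ≥ n + 1 - g`
  have hRR : (n : ℤ) + 1 - genusFF K F ≤ (Module.finrank K (riemannRochSpace D) : ℤ) := by
    have hω₀ := D_ne_zero hx
    have hW := fun v => canonicalDivisorOf_apply (K := K) (F := F) hω₀ v
    have h0 := Fermat.Agent.RR.RRMain.riemann_roch hx hω₀ hW D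
    rw [hD, degree_single H] at h0
    have h1 : (0 : ℤ) ≤ (Module.finrank K (riemannRochSpace (canonicalDivisorOf hω₀ -
        Finsupp.single oo (n : ℤ))) : ℤ) := Int.natCast_nonneg _
    rw [hD]
    omega
  -- the principal part map on `L(D)`
  set Pr : ↥(riemannRochSpace D) →ₗ[K] (Fin n → K) := (ppart e n).domRestrict (riemannRochSpace D)
    with hPr
  -- its kernel injects into `L(0)`, of dimension one
  have hker : Module.finrank K (LinearMap.ker Pr) ≤ 1 := by
    have hmem : ∀ f : ↥(LinearMap.ker Pr), ((f : ↥(riemannRochSpace D)) : F) ∈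
        riemannRochSpace (0 : Divisor K F) := fun f =>
      mem_L_zero_of_ppart_eq_zero e oo hord (f : ↥(riemannRochSpace D)).2
        (LinearMap.mem_ker.mp f.2)
    let ι : ↥(LinearMap.ker Pr) →ₗ[K] ↥(riemannRochSpace (0 : Divisor K F)) :=
      { toFun := fun f => ⟨_, hmem f⟩
        map_add' := fun _ _ => rfl
        map_smul' := fun _ _ => rfl }
    have hinj : Function.Injective ι := fun a b hab => by
      apply Subtype.ext
      apply Subtype.ext
      exact congrArg (fun z : ↥(riemannRochSpace (0 : Divisor K F)) => (z : F)) hab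
    haveI : FiniteDimensional K (riemannRochSpace (0 : Divisor K F)) :=
      Fermat.Agent.RR.RRMain.finiteDimensional_L hx 0
    calc Module.finrank K (LinearMap.ker Pr)
        ≤ Module.finrank K (riemannRochSpace (0 : Divisor K F)) :=
          LinearMap.finrank_le_finrank_of_injective hinj
      _ = 1 := finrank_L_zero H
  -- rank-nullity
  have hrn := LinearMap.finrank_range_add_finrank_ker Pr
  -- the quotient of `K^n` by the range has dimension `≤ g`
  have hquot : Module.finrank K ((Fin n → K) ⧸ LinearMap.range Pr) ≤ genusFF K F := by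
    have h1 := Submodule.finrank_quotient_add_finrank (LinearMap.range Pr)
    rw [Module.finrank_fin_fun] at h1
    have h2 : (Module.finrank K (LinearMap.range Pr) : ℤ) + Module.finrank K (LinearMap.ker Pr) =
        Module.finrank K (riemannRochSpace D) := by exact_mod_cast hrn
    have h3 : (Module.finrank K ((Fin n → K) ⧸ LinearMap.range Pr) : ℤ) +
        Module.finrank K (LinearMap.range Pr) = n := by exact_mod_cast h1
    have h4 : (Module.finrank K (LinearMap.ker Pr) : ℤ) ≤ 1 := by exact_mod_cast hker
    have : (Module.finrank K ((Fin n → K) ⧸ LinearMap.range Pr) : ℤ) ≤ genusFF K F := by omega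
    exact_mod_cast this
  -- the principal parts of the `W i`
  let p : ι → (Fin n → K) := fun i m => (W i).coeff (-((m : ℕ) + 1 : ℤ))
  have hdep : ¬ LinearIndependent K (fun i => (LinearMap.range Pr).mkQ (p i)) := by
    intro hli
    have := hli.fintype_card_le_finrank
    omega
  obtain ⟨c, hc0, i0, hi0⟩ := Fintype.not_linearIndependent_iff.mp hdep
  have hmemR : ∑ i, c i • p i ∈ LinearMap.range Pr := by
    have h1 : (LinearMap.range Pr).mkQ (∑ i, c i • p i) = 0 := by
      rw [map_sum]
      simpa only [map_smul] using hc0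
    exact (Submodule.Quotient.mk_eq_zero _).mp h1
  obtain ⟨f, hf⟩ := hmemR
  refine ⟨c, fun h0 => hi0 (congrFun h0 i0), ∑ i, c i • W i - e (f : F), ?_, (f : F), ?_, ?_⟩
  · -- no principal part
    intro m hm
    rw [HahnSeries.coeff_sub, HahnSeries.coeff_sum]
    by_cases hmn : m < -(n : ℤ)
    · rw [coeff_eq_zero_of_mem_L e oo hord f.2 hmn, sub_zero]
      refine Finset.sum_eq_zero fun i _ => ?_
      rw [HahnSeries.coeff_smul, hn i m hmn, smul_zero]
    · have hk : (-m - 1).toNat < n := by omega
      have h := congrFun hf ⟨(-m - 1).toNat, hk⟩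
      rw [hPr, LinearMap.domRestrict_apply, ppart_apply] at h
      have hm' : -((((⟨(-m - 1).toNat, hk⟩ : Fin n) : ℕ) : ℤ) + 1) = m := by
        show -((((-m - 1).toNat : ℕ) : ℤ) + 1) = m
        rw [Int.toNat_of_nonneg (by omega)]
        ring
      rw [hm'] at h
      rw [h, sub_eq_zero, Finset.sum_apply]
      refine Finset.sum_congr rfl fun i _ => ?_
      rw [HahnSeries.coeff_smul, Pi.smul_apply]
      show c i • (W i).coeff m = c i • (W i).coeff (-((((⟨(-m - 1).toNat, hk⟩ : Fin n) : ℕ) : ℤ) + 1))
      rw [hm']
  · -- regular away from `oo`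
    intro v hv
    rw [mem_iff_ord_nonneg]
    rcases mem_riemannRochSpace_iff.mp f.2 v with h | h
    · exact Or.inl h
    · right
      have hDv : D v = 0 := by rw [hD]; exact Finsupp.single_eq_of_ne hv
      rw [hDv] at h
      simpa using h
  · rw [sub_add_cancel]

end Gap

end Fermat.Agent.T1B.HSemi32
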