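/-
T1B / brick H (helper13's route, report 993), slice H-SEMI = (P-C), helper32.  File 3:
**`Hol13.PC0 N`** (Riemann's inequality at `∞` on `FF N` over `ℚbar`) from `Gaps.exists_dependent_gap`,
given the dimension formula `gDim N = genusFF ℚbar (FF N)` (helper79's H-FORM: `dim S₂(Γ₀(N)) = genus`).
-/
import Mathlib
import Fermat.Agent.T1B.Hol13.Plan
import Fermat.Agent.T1B.HSemi32.Gaps

set_option autoImplicit false
set_option linter.unusedSectionVars false
set_option linter.style.haveILetI false

noncomputable section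

namespace Fermat.Agent.T1B.HSemi32

open HahnSeries ModularCurve AlgebraicCurve
open Fermat.Agent.X0 Fermat.Agent.MW.NCA61.InfPlace Fermat.Agent.T1B.Hol13

variable (N : ℕ) [NeZero N]

/-- The inclusion `FF N ⊆ ℚbar((q))` as an algebra homomorphism. -/
def valAlg : FF N →ₐ[Kbar] LaurentSeries Kbar := (modularFunctionFieldBar N).val

@[simp] theorem valAlg_apply (f : FF N) : valAlg N f = (f : LaurentSeries Kbar) := rfl

/-- Any family of more than `genusFF ℚbar (FF N)` Laurent series over `ℚbar` has a nontrivial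
combination whose polar part is that of a function regular away from `∞`. -/
theorem exists_dependent_FF {ι : Type*} [Fintype ι]
    (hcard : genusFF Kbar (FF N) < Fintype.card ι) (x : ι → LaurentSeries Kbar) :
    ∃ c : ι → Kbar, c ≠ 0 ∧ ∃ f : FF N, RegOff N f ∧
      ∑ i, c i • x i - (f : LaurentSeries Kbar) ∈ PS Kbar := by
  haveI := HasCanDivInst.hasCanonicalDivisor N
  obtain ⟨c, hc, h, hh, f, hf, hsum⟩ :=
    exists_dependent_gap (HasCanDivInst.isGen N) (valAlg N) (inftyPlace N)
      (fun f hf => inftyPlace_ord N hf) hcard x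
  refine ⟨c, hc, f, fun v hv => hf v hv, ?_⟩
  rw [hsum, valAlg_apply, add_sub_cancel_right]
  exact hh

/-- **`PC0 N`**, given `dim S₂(Γ₀(N)) = genusFF`. -/
theorem pc0 (hg : gDim N = genusFF Kbar (FF N)) : PC0 N := by
  intro x
  obtain ⟨c, hc, f, hf, hmem⟩ := exists_dependent_FF N (by rw [Fintype.card_fin, hg]; omega) x
  exact ⟨c, hc, f, hf, fun n hn => hmem n hn⟩

end Fermat.Agent.T1B.HSemi32
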