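/-
T1B / brick H (helper13's route, report 993), slice H-SEMI = (P-C), helper32.  File 4: **`Hol13.PC N A`**
from the characteristic zero statement (`PC0.exists_dependent_FF`) and SATURATION, against the
geometric inputs of H-GEOM stated as hypotheses:

* `(H1)` `r` with `IsPlaceReductionAlong A (resA A) N r` (Prelude),
* `(H2)` reductions of `A`-integral elements of `Fbar N` lie in `F~ = modularFunctionFieldFullC κ N`,
* `(H3)` the `q`-expansion place `ooB` of `F~` (`ooB.ord u = order u`) with `r ∞ = ooB`,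
* `(H4)` a place `z0` with `r z0 ≠ ooB`,
* `(H5)` every nonzero function regular away from `∞` is `δ • b` with `b` `A`-integral of nonzero
  reduction (content exists).

Key claim `aint_of_regOff` (helper13's (TF)): a function regular away from `∞`, vanishing at `z0`,
whose polar part at `∞` has coefficients in `A`, has an `A`-integral `q`-expansion.  Otherwise
`f = δ b`, `δ⁻¹ ∈ 𝔪_A`, the reduction `b~` has no pole at `ooB`, so `div b~ = r_* div b ≥ 0` has degree
`0` but is positive at `r z0`.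
-/
import Mathlib
import Fermat.Agent.T1B.Hol13.Plan
import Fermat.Agent.T1B.HSemi32.PC0

set_option autoImplicit false
set_option linter.unusedSectionVars false
set_option linter.style.haveILetI false

noncomputable section

namespace Fermat.Agent.T1B.HSemi32

open HahnSeries ModularCurve AlgebraicCurve
open Fermat.Agent.X0 Fermat.Agent.X0.FF Fermat.Agent.ES.RED.Setup8
  Fermat.Agent.MW.NCA61.InfPlace Fermat.Agent.T1B.Hol13 Fermat.Agent.RR.LSpace

/-! ### Push-forward of divisors, pointwise -/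

open Classical in
theorem mapDomain_apply_eq_sum {α β : Type*} (r : α → β) (D : α →₀ ℤ) (Q : β) :
    Finsupp.mapDomain r D Q = ∑ z ∈ D.support, if r z = Q then D z else 0 := by
  rw [Finsupp.mapDomain, Finsupp.sum, Finsupp.finsetSum_apply]
  refine Finset.sum_congr rfl fun z _ => ?_
  rw [Finsupp.single_apply]

/-- An effective divisor which is positive at a place of positive degree has positive degree. -/
theorem degree_pos_of_nonneg {K F : Type*} [Field K] [Field F] [Algebra K F] (E : Divisor K F)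
    (hE : ∀ Q, 0 ≤ E Q) (Q0 : Place K F) (hQ0 : 0 < E Q0) (hdeg : 0 < Q0.deg) :
    0 < Divisor.degree E := by
  classical
  have h1 : Divisor.degree E = ∑ Q ∈ E.support, E Q * (Q.deg : ℤ) := by
    rw [Divisor.degree, Finsupp.liftAddHom_apply, Finsupp.sum]
    rfl
  rw [h1]
  have hmem : Q0 ∈ E.support := Finsupp.mem_support_iff.mpr hQ0.ne'
  refine Finset.sum_pos' (fun Q _ => mul_nonneg (hE Q) (Int.natCast_nonneg _)) ⟨Q0, hmem, ?_⟩
  exact mul_pos hQ0 (by exact_mod_cast hdeg)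

section Sat

variable (N : ℕ) [NeZero N] (A : ValuationSubring Kbar)

/-- The `A`-integral `q`-expansions of the functions regular away from `∞`. -/
def Bsub : Submodule ↥A (LaurentSeries ↥A) where
  carrier := {Y | ∃ f : FF N, RegOff N f ∧ (f : LaurentSeries Kbar) = coeffMap A.subtype Y}
  zero_mem' := ⟨0, fun v _ => zero_mem _, by rw [map_zero]; rfl⟩
  add_mem' := by
    rintro Y Z ⟨f, hf, hfY⟩ ⟨g, hg, hgZ⟩
    refine ⟨f + g, fun v hv => add_mem (hf v hv) (hg v hv), ?_⟩
    rw [map_add, ← hfY, ← hgZ]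
    rfl
  smul_mem' := by
    rintro a Y ⟨f, hf, hfY⟩
    refine ⟨algebraMap Kbar (FF N) (a : Kbar) * f,
      fun v hv => mul_mem (v.algebraMap_mem' _) (hf v hv), ?_⟩
    rw [coeffMap_smul, ← hfY]
    show algebraMap Kbar (LaurentSeries Kbar) (a : Kbar) * (f : LaurentSeries Kbar) = _
    rw [algebraMap_laurentSeries_eq_single, HahnSeries.single_zero_mul_eq_smul]
    rfl

theorem mem_Bsub {Y : LaurentSeries ↥A} :
    Y ∈ Bsub N A ↔ ∃ f : FF N, RegOff N f ∧ (f : LaurentSeries Kbar) = coeffMap A.subtype Y :=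
  Iff.rfl

/-- Reductions of elements of `Bsub` are in the test set. -/
theorem red_mem_testSet {Y : LaurentSeries ↥A} (hY : Y ∈ Bsub N A) :
    coeffMap (resA A) Y ∈ testSet N A := by
  obtain ⟨f, hf, hfY⟩ := hY
  refine ⟨⟨f, ⟨Y, hfY.symm⟩⟩, hf, ?_⟩
  exact (redA_eq A (modularFunctionFieldBar N) _ hfY.symm).symm

/-- Scalar multiples of functions regular away from `∞`. -/
theorem regOff_smul {f : FF N} (hf : RegOff N f) (c : Kbar) :
    RegOff N (algebraMap Kbar (FF N) c * f) :=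
  fun v hv => mul_mem (v.algebraMap_mem' _) (hf v hv)

theorem coe_algebraMap_mul (c : Kbar) (f : FF N) :
    ((algebraMap Kbar (FF N) c * f : FF N) : LaurentSeries Kbar) =
      c • (f : LaurentSeries Kbar) := by
  show algebraMap Kbar (LaurentSeries Kbar) c * (f : LaurentSeries Kbar) = _
  rw [algebraMap_laurentSeries_eq_single, HahnSeries.single_zero_mul_eq_smul]

variable {N A}
variable {r : Place Kbar (FF N) → Place (kA A) ↥(modularFunctionFieldFullC (kA A) N)}
  (hr : IsPlaceReductionAlong A (resA A) N r)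
  (hmem : ∀ Y : LaurentSeries ↥A, coeffMap A.subtype Y ∈ modularFunctionFieldBar N →
    coeffMap (resA A) Y ∈ modularFunctionFieldFullC (kA A) N)
  (ooB : Place (kA A) ↥(modularFunctionFieldFullC (kA A) N))
  (hooB : ∀ u : ↥(modularFunctionFieldFullC (kA A) N), u ≠ 0 →
    ooB.ord u = (u : LaurentSeries (kA A)).order)
  (hroo : r (inftyPlace N) = ooB)
  (z0 : Place Kbar (FF N)) (hz0 : r z0 ≠ ooB)
  (hnorm : ∀ f : FF N, RegOff N f → f ≠ 0 → ∃ (δ : Kbar) (Y : LaurentSeries ↥A), δ ≠ 0 ∧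
    (f : LaurentSeries Kbar) = δ • coeffMap A.subtype Y ∧ coeffMap (resA A) Y ≠ 0)

include hr hmem hooB hroo hz0 hnorm in
/-- **(TF).**  A function regular away from `∞`, vanishing at `z0`, whose polar part at `∞` has
coefficients in `A`, has an `A`-integral `q`-expansion. -/
theorem aint_of_regOff (f : FF N) (hf : RegOff N f) (hz : f = 0 ∨ 0 < z0.ord f)
    (hpp : ∀ n : ℤ, n < 0 → (f : LaurentSeries Kbar).coeff n ∈ A) :
    ∃ Y : LaurentSeries ↥A, coeffMap A.subtype Y = (f : LaurentSeries Kbar) := by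
  classical
  rcases eq_or_ne f 0 with rfl | hf0
  · exact ⟨0, by rw [map_zero]; rfl⟩
  have hz' : 0 < z0.ord f := hz.resolve_left hf0
  obtain ⟨δ, Y, hδ, hfY, hred⟩ := hnorm f hf hf0
  by_cases hδA : δ ∈ A
  · refine ⟨(⟨δ, hδA⟩ : ↥A) • Y, ?_⟩
    rw [coeffMap_smul, hfY]
    rfl
  exfalso
  have hinv : δ⁻¹ ∈ A := (A.mem_or_inv_mem δ).resolve_left hδA
  have hm : (⟨δ⁻¹, hinv⟩ : ↥A) ∈ IsLocalRing.maximalIdeal ↥A := by
    refine (A.valuation_lt_one_iff (⟨δ⁻¹, hinv⟩ : ↥A)).mpr ?_
    show A.valuation δ⁻¹ < 1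
    have h1 : ¬ A.valuation δ ≤ 1 := fun h => hδA ((A.valuation_le_one_iff δ).mp h)
    rw [map_inv₀]
    exact inv_lt_one_of_one_lt₀ (not_le.mp h1)
  -- `emb Y = δ⁻¹ • f`
  have hY : coeffMap A.subtype Y = δ⁻¹ • (f : LaurentSeries Kbar) := by
    rw [hfY, smul_smul, inv_mul_cancel₀ hδ, one_smul]
  -- the negative coefficients of `Y` lie in the maximal ideal
  have hneg : ∀ n : ℤ, n < 0 → Y.coeff n ∈ IsLocalRing.maximalIdeal ↥A := by
    intro n hn
    have h1 : ((Y.coeff n : ↥A) : Kbar) = δ⁻¹ * (f : LaurentSeries Kbar).coeff n := by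
      have := congrArg (fun z : LaurentSeries Kbar => z.coeff n) hY
      simp only [coeffMap_coeff, HahnSeries.coeff_smul, smul_eq_mul] at this
      exact this
    have h2 : Y.coeff n = (⟨δ⁻¹, hinv⟩ : ↥A) * ⟨(f : LaurentSeries Kbar).coeff n, hpp n hn⟩ :=
      Subtype.ext h1
    rw [h2]
    exact Ideal.mul_mem_right _ _ hm
  have hPS : coeffMap (resA A) Y ∈ PS (kA A) := fun n hn => by
    rw [coeffMap_coeff]
    exact (IsLocalRing.residue_eq_zero_iff _).mpr (hneg n hn)
  -- `b = δ⁻¹ f ∈ FF N`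
  have hbcoe : ((algebraMap Kbar (FF N) δ⁻¹ * f : FF N) : LaurentSeries Kbar) =
      coeffMap A.subtype Y := by rw [coe_algebraMap_mul, hY]
  have hYmem : coeffMap A.subtype Y ∈ modularFunctionFieldBar N := by
    rw [← hbcoe]; exact (algebraMap Kbar (FF N) δ⁻¹ * f : FF N).2
  set b : FF N := ⟨coeffMap A.subtype Y, hYmem⟩ with hbdef
  have hb : b = algebraMap Kbar (FF N) δ⁻¹ * f := Subtype.ext hbcoe.symm
  have hc0 : algebraMap Kbar (FF N) δ⁻¹ ≠ 0 := by
    rw [Ne, map_eq_zero]; exact inv_ne_zero hδ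
  have hb0 : b ≠ 0 := by rw [hb]; exact mul_ne_zero hc0 hf0
  have hbreg : RegOff N b := by rw [hb]; exact regOff_smul N hf _
  have hbz0 : 0 < z0.ord b := by
    rw [hb, Place.ord_mul _ hc0 hf0, ord_algebraMap, zero_add]; exact hz'
  -- the divisor of `b` and its push-forward
  have H : LHyp Kbar (FF N) := Fermat.Agent.RR.LHypGen.lHyp_of_isGen (HasCanDivInst.isGen N)
  obtain ⟨D, hD, hdeg⟩ := H.principal b hb0
  have hyk := hmem Y hYmem
  have key := hr.2 Y hYmem hyk hred D hD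
  have hdeg' : Divisor.degree (Finsupp.mapDomain r D) = 0 := by
    rw [degree_mapDomain_of_deg_eq hr.1, hdeg]
  have hu0 : (⟨coeffMap (resA A) Y, hyk⟩ : ↥(modularFunctionFieldFullC (kA A) N)) ≠ 0 :=
    fun h => hred (congrArg Subtype.val h)
  have hnn : ∀ Q, 0 ≤ Finsupp.mapDomain r D Q := by
    intro Q
    by_cases hQ : Q = ooB
    · rw [key Q, hQ, hooB _ hu0]
      exact order_nonneg_of_mem_PS hPS
    · rw [mapDomain_apply_eq_sum]
      refine Finset.sum_nonneg fun z _ => ?_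
      split_ifs with hzQ
      · have hzoo : z ≠ inftyPlace N := fun h => hQ (by rw [← hzQ, h, hroo])
        rw [hD z]
        exact ((mem_iff_ord_nonneg z).mp (hbreg z hzoo)).resolve_left hb0
      · exact le_rfl
  have hpos : 0 < Finsupp.mapDomain r D (r z0) := by
    rw [mapDomain_apply_eq_sum]
    have hz0mem : z0 ∈ D.support := by
      rw [Finsupp.mem_support_iff, hD z0]; exact hbz0.ne'
    refine Finset.sum_pos' (fun z _ => ?_) ⟨z0, hz0mem, ?_⟩
    · split_ifs with hzQ
      · have hzoo : z ≠ inftyPlace N := fun h => hz0 (by rw [← hzQ, h, hroo])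
        rw [hD z]
        exact ((mem_iff_ord_nonneg z).mp (hbreg z hzoo)).resolve_left hb0
      · exact le_rfl
    · rw [if_pos rfl, hD z0]; exact hbz0
  have hdegpos := degree_pos_of_nonneg (Finsupp.mapDomain r D) hnn (r z0) hpos
    (by rw [hr.1 z0, H.deg_eq_one z0]; exact Nat.one_pos)
  omega

include hr hmem hooB hroo hz0 hnorm in
/-- **Saturation** of `A[[q]] + Bsub` in `A((q))`. -/
theorem saturated (γ : ↥A) (hγ : γ ≠ 0) (X : LaurentSeries ↥A)
    (h : ∃ h ∈ PS ↥A, ∃ f ∈ Bsub N A, γ • X = h + f) :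
    ∃ h ∈ PS ↥A, ∃ f ∈ Bsub N A, X = h + f := by
  obtain ⟨h, hh, Yf, ⟨f, hfreg, hfY⟩, hX⟩ := h
  have H : LHyp Kbar (FF N) := Fermat.Agent.RR.LHypGen.lHyp_of_isGen (HasCanDivInst.isGen N)
  have hz0oo : z0 ≠ inftyPlace N := fun h0 => hz0 (by rw [h0, hroo])
  -- the value `c = f(z0)`
  obtain ⟨c, hc⟩ := H.residue z0 f (hfreg z0 hz0oo)
  have hγK : (γ : Kbar) ≠ 0 := fun h0 => hγ (Subtype.ext h0)
  -- `F' = γ⁻¹ (f - c)`
  set F' : FF N := algebraMap Kbar (FF N) (γ : Kbar)⁻¹ * (f - algebraMap Kbar (FF N) c) with hF'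
  have hF'reg : RegOff N F' :=
    regOff_smul N (fun v hv => sub_mem (hfreg v hv) (v.algebraMap_mem' c)) _
  have hF'z : F' = 0 ∨ 0 < z0.ord F' := by
    rcases hc with hc | hc
    · left; rw [hF', hc, sub_self, mul_zero]
    · by_cases h0 : f - algebraMap Kbar (FF N) c = 0
      · left; rw [hF', h0, mul_zero]
      · right
        have hc0 : algebraMap Kbar (FF N) (γ : Kbar)⁻¹ ≠ 0 := by
          rw [Ne, map_eq_zero]; exact inv_ne_zero hγK
        rw [hF', Place.ord_mul _ hc0 h0, ord_algebraMap, zero_add]; exact hc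
  have hF'coe : (F' : LaurentSeries Kbar) =
      (γ : Kbar)⁻¹ • ((f : LaurentSeries Kbar) - algebraMap Kbar (LaurentSeries Kbar) c) := by
    rw [hF', coe_algebraMap_mul]; rfl
  -- the polar part of `F'` is the polar part of `X`
  have hpp : ∀ n : ℤ, n < 0 → (F' : LaurentSeries Kbar).coeff n = ((X.coeff n : ↥A) : Kbar) := by
    intro n hn
    have h1 : (f : LaurentSeries Kbar).coeff n = (γ : Kbar) * ((X.coeff n : ↥A) : Kbar) := by
      have := congrArg (fun z : LaurentSeries ↥A => ((z.coeff n : ↥A) : Kbar)) hX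
      simp only [HahnSeries.coeff_smul, HahnSeries.coeff_add, smul_eq_mul, hh n hn, zero_add]
        at this
      rw [hfY, coeffMap_coeff]
      exact this.symm
    rw [hF'coe, HahnSeries.coeff_smul, HahnSeries.coeff_sub, algebraMap_laurentSeries_eq_single,
      HahnSeries.coeff_single_of_ne hn.ne, sub_zero, h1, smul_eq_mul, ← mul_assoc,
      inv_mul_cancel₀ hγK, one_mul]
  obtain ⟨Y', hY'⟩ := aint_of_regOff hr hmem ooB hooB hroo z0 hz0 hnorm F' hF'reg hF'z
    (fun n hn => by rw [hpp n hn]; exact (X.coeff n).2)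
  refine ⟨X - Y', ?_, Y', ⟨F', hF'reg, hY'.symm⟩, by rw [sub_add_cancel]⟩
  intro n hn
  apply Subtype.val_injective
  have h2 : ((Y'.coeff n : ↥A) : Kbar) = (F' : LaurentSeries Kbar).coeff n := by
    rw [← hY', coeffMap_coeff]; rfl
  rw [HahnSeries.coeff_sub]
  show ((X.coeff n : ↥A) : Kbar) - ((Y'.coeff n : ↥A) : Kbar) = 0
  rw [h2, hpp n hn, sub_self]

include hr hmem hooB hroo hz0 hnorm in
/-- **`PC N A`** from the geometric inputs `(H1)`–`(H5)` and the dimension formula. -/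
theorem pc_of_geom (hg : gDim N = genusFF Kbar (FF N)) : PC N A := by
  intro x
  have hgap : ∀ W : Fin (gDim N + 1) → LaurentSeries Kbar, ∃ c : Fin (gDim N + 1) → Kbar, c ≠ 0 ∧
      ∃ h ∈ PS Kbar, ∃ f ∈ Bsub N A, ∑ i, c i • W i = h + coeffMap A.subtype f := by
    intro W
    obtain ⟨c, hc, f, hf, hps⟩ :=
      exists_dependent_FF N (by rw [Fintype.card_fin, hg]; omega) W
    rcases eq_or_ne f 0 with rfl | hf0
    · refine ⟨c, hc, ∑ i, c i • W i, ?_, 0, (Bsub N A).zero_mem, by rw [map_zero, add_zero]⟩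
      simpa using hps
    obtain ⟨δ, Y, hδ, hfY, -⟩ := hnorm f hf hf0
    -- `δ = a / γ` with `a, γ ∈ A`
    obtain ⟨γ, hγ0, a, ha⟩ : ∃ γ : ↥A, γ ≠ 0 ∧ ∃ a : ↥A, (γ : Kbar) * δ = (a : Kbar) := by
      rcases A.mem_or_inv_mem δ with hδA | hδA
      · exact ⟨1, one_ne_zero, ⟨δ, hδA⟩, by simp⟩
      · refine ⟨⟨δ⁻¹, hδA⟩, fun h0 => inv_ne_zero hδ (congrArg Subtype.val h0), 1, ?_⟩
        show δ⁻¹ * δ = ((1 : ↥A) : Kbar)
        rw [inv_mul_cancel₀ hδ]; rfl
    have hγK : (γ : Kbar) ≠ 0 := fun h0 => hγ0 (Subtype.ext h0)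
    refine ⟨fun i => (γ : Kbar) * c i, ?_, (γ : Kbar) • (∑ i, c i • W i - (f : LaurentSeries Kbar)),
      (PS Kbar).smul_mem _ hps, a • Y, ?_, ?_⟩
    · intro h0
      apply hc
      funext i
      have := congrFun h0 i
      simpa [hγK] using this
    · refine ⟨algebraMap Kbar (FF N) (γ : Kbar) * f, regOff_smul N hf _, ?_⟩
      rw [coe_algebraMap_mul, coeffMap_smul, hfY, smul_smul, ha]
      rfl
    · rw [coeffMap_smul, smul_sub, sub_add_eq_add_sub, Finset.smul_sum]
      have h1 : (A.subtype a) • coeffMap A.subtype Y = (γ : Kbar) • (f : LaurentSeries Kbar) := by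
        rw [hfY, smul_smul, ha]; rfl
      rw [h1, add_sub_cancel_right]
      refine Finset.sum_congr rfl fun i _ => ?_
      rw [smul_smul]
  obtain ⟨c, hc, h, hh, f, hf, hsum⟩ := exists_dependent_mod A (Bsub N A) (gDim N) hgap
    (fun γ hγ X hX => saturated hr hmem ooB hooB hroo z0 hz0 hnorm γ hγ X hX) x
  refine ⟨c, hc, ?_⟩
  rw [hsum]
  exact Submodule.add_mem_sup (fun n hn => hh n hn)
    (Submodule.subset_span (red_mem_testSet N A hf))

end Sat

end Fermat.Agent.T1B.HSemi32
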