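/-
T1B / brick H (helper13's route, report 993), slice H-SEMI = (P-C), helper32.  File 5: **`Hol13.PC N A`**
from helper93's geometric contract `HolGeom93.Geom A N r` (fields `red`, `mem`, `infty`, `z0`, `norm`)
and helper79's dimension formula `HForm79.gDim_eq_genusFF`.
-/
import Mathlib
import Fermat.Agent.T1B.HSemi32.Sat
import Fermat.Agent.T1B.HolGeom93.Geom
import Fermat.Agent.T1B.HForm79.GenusFF

set_option autoImplicit false

noncomputable section

namespace Fermat.Agent.T1B.HSemi32

open AlgebraicCurve ModularCurve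
open Fermat.Agent.X0 Fermat.Agent.ES.RED.Setup8 Fermat.Agent.T1B.Hol13

/-- **(P-C) from the geometric contract.** -/
theorem pc_of_geomStruct {N : ℕ} [NeZero N] {A : ValuationSubring Kbar}
    {r : Place Kbar (FF N) → Place (kA A) ↥(modularFunctionFieldFullC (kA A) N)}
    (hG : Fermat.Agent.T1B.HolGeom93.Geom A N r) : PC N A := by
  obtain ⟨z0, hz0⟩ := hG.z0
  exact pc_of_geom hG.red hG.mem (inftyPlaceC (kA A) N) (fun u hu => inftyPlaceC_ord (kA A) N hu)
    hG.infty z0 hz0 hG.norm (Fermat.Agent.T1B.HForm79.gDim_eq_genusFF N)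

/-- **(P-C)**, given the existence of the geometric contract. -/
theorem pc_of_exists_geom {N : ℕ} [NeZero N] {A : ValuationSubring Kbar}
    (h : ∃ r : Place Kbar (FF N) → Place (kA A) ↥(modularFunctionFieldFullC (kA A) N),
      Fermat.Agent.T1B.HolGeom93.Geom A N r) : PC N A := by
  obtain ⟨r, hG⟩ := h
  exact pc_of_geomStruct hG

end Fermat.Agent.T1B.HSemi32
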