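/-
T1B / brick H, slice H-SEMI = (P-C), helper32.  File 6: `pc` — unconditional `Hol13.PC N A`.
-/
import Mathlib
import Fermat.Agent.T1B.HSemi32.Main
import Fermat.Agent.T1B.HolGeom93.Exists

set_option autoImplicit false

noncomputable section

namespace Fermat.Agent.T1B.HSemi32

open AlgebraicCurve ModularCurve
open Fermat.Agent.X0 Fermat.Agent.ES.RED.Setup8 Fermat.Agent.T1B.Hol13

/-- **(P-C)**, unconditional. -/
theorem pc (N p : ℕ) [NeZero N] (hp : p.Prime) (h4 : 4 ∣ N) (hpN : ¬ p ∣ N)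
    (A : ValuationSubring Kbar) (hA : A.LiesOverPrime p) : PC N A :=
  pc_of_exists_geom (Fermat.Agent.T1B.HolGeom93.exists_geom A N hp h4 hpN hA)

end Fermat.Agent.T1B.HSemi32
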